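import Mathlib.NumberTheory.FLT.Basic
import Mathlib.NumberTheory.FLT.Four
import Mathlib.NumberTheory.FLT.Three
import Fermat.Prelude.Def_FLTPrelim_FreyPackage

set_option autoImplicit false

namespace Fermat.Agent.S01

/-- Reduction of Fermat's Last Theorem to the two Frey-package statements
(existence of a Frey package from a counterexample with prime exponent `p ≥ 5`,
and non-existence of Frey packages), using Mathlib's `n = 3` and `n = 4` cases. -/
theorem fermatLastTheorem_of_frey
    (h2 : ∀ (a b c : ℤ), a ≠ 0 → b ≠ 0 → c ≠ 0 → ∀ (p : ℕ), p.Prime → 5 ≤ p →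
      a ^ p + b ^ p = c ^ p → Nonempty FreyPackage)
    (h3 : FreyPackage → False) : FermatLastTheorem := by
  apply FermatLastTheorem.of_odd_primes
  intro p pp podd
  by_cases h : p = 3
  · subst h
    exact fermatLastTheoremThree
  · have hp2 : 2 ≤ p := pp.two_le
    have hp5 : 5 ≤ p := by
      rcases podd with ⟨k, hk⟩
      have h4 : p ≠ 4 := by omega
      have h2' : p ≠ 2 := by omega
      omega
    rw [fermatLastTheoremFor_iff_int]
    intro a b c ha hb hc H
    obtain ⟨P⟩ := h2 a b c ha hb hc p pp hp5 H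
    exact h3 P

/-- The elementary form of the statement, from the two Frey-package statements. -/
theorem result_of_frey
    (h2 : ∀ (a b c : ℤ), a ≠ 0 → b ≠ 0 → c ≠ 0 → ∀ (p : ℕ), p.Prime → 5 ≤ p →
      a ^ p + b ^ p = c ^ p → Nonempty FreyPackage)
    (h3 : FreyPackage → False)
    (n : ℕ) (hn : 3 ≤ n) (a b c : ℕ) (ha : 0 < a) (hb : 0 < b) (hc : 0 < c) :
    a ^ n + b ^ n ≠ c ^ n :=
  fermatLastTheorem_of_frey h2 h3 n hn a b c ha.ne' hb.ne' hc.ne'

end Fermat.Agent.S01
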